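import Fermat.Agent.Chebotarev.Counting
import Fermat.Agent.Alg.Frobenius

/-!
Frobenius density theorem: powers of Frobenius elements are dense in the absolute Galois group.
-/

set_option autoImplicit false

noncomputable section

namespace FLTAgent.Chebotarev

open Filter Topology NumberField Asymptotics Polynomial
open scoped Pointwise

def placeAt (p : Nat.Primes) : ValuationSubring QBar :=
  (FLTAgent.Alg.exists_place_frobenius p p.2).choose

def frobAt (p : Nat.Primes) : GalQBar :=
  (FLTAgent.Alg.exists_place_frobenius p p.2).choose_spec.choose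

lemma placeAt_liesOver (p : Nat.Primes) : (placeAt p).LiesOverPrime p :=
  (FLTAgent.Alg.exists_place_frobenius p p.2).choose_spec.choose_spec.1

lemma isFrobeniusAt_frobAt (p : Nat.Primes) : (placeAt p).IsFrobeniusAt (frobAt p) p :=
  (FLTAgent.Alg.exists_place_frobenius p p.2).choose_spec.choose_spec.2

variable (L : IntermediateField ℚ QBar) [FiniteDimensional ℚ L] [Normal ℚ L]

abbrev frobRes (p : Nat.Primes) : L ≃ₐ[ℚ] L := AlgEquiv.restrictNormalHom L (frobAt p)

lemma card_fixed_eq_rootCount {t : L} (ht : IsIntegral ℤ t) [DecidableEq L] :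
    ∃ bad : Finset Nat.Primes, ∀ p : Nat.Primes, p ∉ bad →
      ((Finset.univ.image fun g : L ≃ₐ[ℚ] L => g t).filter fun r => frobRes L p r = r).card =
        rootCount (minpoly ℤ t) p := by
  classical
  set R : Finset L := Finset.univ.image fun g : L ≃ₐ[ℚ] L => g t with hR
  have hRint : ∀ r ∈ R, IsIntegral ℤ (r : QBar) := by
    intro r hr
    obtain ⟨g, _, rfl⟩ := Finset.mem_image.mp hr
    exact map_isIntegral_int (algebraMap L QBar) (map_isIntegral_int g ht)
  let toInt : R → integralClosure ℤ QBar := fun r => ⟨((r : L) : QBar), hRint r r.2⟩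
  let diffs : Finset (R × R) := Finset.univ.filter fun rr => rr.1 ≠ rr.2
  let c : R × R → ℕ := fun rr =>
    ((minpoly ℤ ((toInt rr.1 - toInt rr.2 : integralClosure ℤ QBar) : QBar)).coeff 0).natAbs
  have hc : ∀ rr ∈ diffs, c rr ≠ 0 := by
    intro rr hrr
    have hne : ((toInt rr.1 - toInt rr.2 : integralClosure ℤ QBar) : QBar) ≠ 0 := by
      intro h0
      apply (Finset.mem_filter.mp hrr).2
      apply Subtype.ext
      apply Subtype.ext
      exact sub_eq_zero.mp (by simpa [toInt] using h0)
    simp only [c, ne_eq, Int.natAbs_eq_zero]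
    have hi : IsIntegral ℤ ((toInt rr.1 - toInt rr.2 : integralClosure ℤ QBar) : QBar) :=
      (toInt rr.1 - toInt rr.2).2
    intro h0
    apply minpoly.coeff_zero_ne_zero (A := ℚ) hi.tower_top hne
    rw [minpoly.isIntegrallyClosed_eq_field_fractions' ℚ hi, Polynomial.coeff_map, h0, map_zero]
  refine ⟨diffs.biUnion fun rr => (c rr).divisors.subtype Nat.Prime, fun p hp => ?_⟩
  set A := placeAt p
  have hA : A.LiesOverPrime (p : ℕ) := placeAt_liesOver p
  have hF := isFrobeniusAt_frobAt p
  have : Fact (p : ℕ).Prime := ⟨p.2⟩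
  have := charP_residue p.2 hA
  let k := IsLocalRing.ResidueField A
  let red : R → k := fun r => redAt A (toInt r)
  have hinj : Function.Injective red := by
    intro r r' h
    by_contra hne
    apply hp
    refine Finset.mem_biUnion.mpr ⟨(r, r'), Finset.mem_filter.mpr ⟨Finset.mem_univ _, hne⟩, ?_⟩
    refine Finset.mem_subtype.mpr (Nat.mem_divisors.mpr ⟨?_, hc _ ?_⟩)
    · rw [← Int.natCast_dvd]
      exact dvd_coeff_minpoly p.2 hA _ (by rw [map_sub, sub_eq_zero]; exact h)
    · exact Finset.mem_filter.mpr ⟨Finset.mem_univ _, hne⟩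
  have hfix : ∀ r : R, red r ^ (p : ℕ) = red r → frobRes L p r = r := by
    intro r hr
    have hmemR : frobRes L p r ∈ R := by
      obtain ⟨g, _, hg⟩ := Finset.mem_image.mp r.2
      exact Finset.mem_image.mpr ⟨frobRes L p * g, Finset.mem_univ _, by rw [← hg]; rfl⟩
    have hkey : red ⟨_, hmemR⟩ = red r ^ (p : ℕ) := by
      change redAt A (toInt ⟨_, hmemR⟩) = redAt A (toInt r) ^ (p : ℕ)
      rw [← map_pow]
      refine (redAt_eq_iff _ _).mpr ?_
      have hcom : ((frobRes L p r : L) : QBar) = frobAt p ((r : L) : QBar) :=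
        AlgEquiv.restrictNormal_commutes (frobAt p) L r
      simp only [toInt, SubmonoidClass.coe_pow, hcom]
      exact frob_sub_pow_mem hF (coe_mem_valuationSubring (hRint r r.2))
    exact congrArg Subtype.val (hinj (hkey.trans hr))
  have hfix' : ∀ r : R, frobRes L p r = r → red r ^ (p : ℕ) = red r := by
    intro r hr
    simp only [red, ← map_pow]
    refine ((redAt_eq_iff _ _).mpr ?_).symm
    have hcom : ((frobRes L p r : L) : QBar) = frobAt p ((r : L) : QBar) :=
      AlgEquiv.restrictNormal_commutes (frobAt p) L r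
    rw [hr] at hcom
    simp only [toInt, SubmonoidClass.coe_pow]
    have := frob_sub_pow_mem hF (coe_mem_valuationSubring (hRint r r.2))
    rwa [← hcom] at this
  set f := minpoly ℤ t with hf
  have hfm : f.Monic := minpoly.monic ht
  have hroot : ∀ r : R, Polynomial.eval₂ (Int.castRingHom k) (red r) f = 0 := by
    intro r
    have h0 : aeval (toInt r) f = 0 := by
      apply Subtype.ext
      rw [← Subalgebra.coe_val, ← Polynomial.aeval_algHom_apply, map_zero]
      obtain ⟨g, _, hg⟩ := Finset.mem_image.mp r.2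
      have h1 : aeval (r : L) f = 0 := by
        have h2 : aeval ((AlgHom.restrictScalars ℤ (g : L →ₐ[ℚ] L)) t) f = 0 := by
          rw [aeval_algHom_apply, hf, minpoly.aeval, map_zero]
        rw [← hg]
        exact h2
      have h3 : aeval ((IsScalarTower.toAlgHom ℤ L QBar) (r : L)) f = 0 := by
        rw [aeval_algHom_apply, h1, map_zero]
      exact h3
    have h2 := congrArg (redAt A) h0
    rw [map_zero, aeval_def, hom_eval₂] at h2
    rwa [RingHom.ext_int ((redAt A).comp (algebraMap ℤ _)) (Int.castRingHom k)] at h2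
  have hsurj : ∀ a : k, Polynomial.eval₂ (Int.castRingHom k) a f = 0 → ∃ r : R, red r = a := by
    intro a ha
    have hmap : f.map (algebraMap ℤ L) = (minpoly ℚ t).map (algebraMap ℚ L) := by
      rw [minpoly.isIntegrallyClosed_eq_field_fractions' ℚ ht, Polynomial.map_map]
      congr 1
    have hfL : f.map (algebraMap ℤ L) = ∏ r ∈ R, (X - C r) := by
      have hs : ((minpoly ℚ t).map (algebraMap ℚ L)).Splits := Normal.splits inferInstance t
      have hsep : ((minpoly ℚ t).map (algebraMap ℚ L)).Separable :=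
        Polynomial.Separable.map (Algebra.IsSeparable.isSeparable ℚ t)
      have hmon : ((minpoly ℚ t).map (algebraMap ℚ L)).Monic :=
        (minpoly.monic (IsIntegral.of_finite ℚ t)).map _
      have hprod := hs.eq_prod_roots_of_monic hmon
      have hrs : ((minpoly ℚ t).map (algebraMap ℚ L)).roots = R.val := by
        refine (Multiset.Nodup.ext (nodup_roots hsep) R.nodup).mpr fun x => ?_
        rw [mem_roots hmon.ne_zero, IsRoot.def, ← hmap, eval_map_algebraMap]
        constructor
        · intro hx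
          obtain ⟨g, hg⟩ := exists_galois_mapsTo L ht hx
          exact Finset.mem_image.mpr ⟨g, Finset.mem_univ _, hg⟩
        · intro hx
          obtain ⟨g, _, rfl⟩ := Finset.mem_image.mp hx
          have h2 : aeval ((AlgHom.restrictScalars ℤ (g : L →ₐ[ℚ] L)) t) f = 0 := by
            rw [aeval_algHom_apply, hf, minpoly.aeval, map_zero]
          exact h2
      rw [hmap, hprod, hrs]
      rfl
    have hfO : f.map (algebraMap ℤ (integralClosure ℤ QBar)) =
        ∏ r : R, (X - C (toInt r)) := by
      apply Polynomial.map_injective (integralClosure ℤ QBar).val.toRingHom Subtype.val_injective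
      rw [Polynomial.map_map, Polynomial.map_prod]
      have : ((integralClosure ℤ QBar).val.toRingHom.comp (algebraMap ℤ _)) =
          (algebraMap L QBar).comp (algebraMap ℤ L) := RingHom.ext_int _ _
      rw [this, ← Polynomial.map_map, hfL, Polynomial.map_prod, ← Finset.prod_coe_sort R]
      refine Finset.prod_congr rfl fun r _ => ?_
      simp [toInt]
    have h4 := congrArg (Polynomial.eval₂ (redAt A) a) hfO
    rw [eval₂_map, RingHom.ext_int ((redAt A).comp (algebraMap ℤ _)) (Int.castRingHom k),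
      ha, eval₂_finsetProd] at h4
    obtain ⟨r, _, hr⟩ := Finset.prod_eq_zero_iff.mp h4.symm
    refine ⟨r, ?_⟩
    simp only [eval₂_sub, eval₂_X, eval₂_C, sub_eq_zero] at hr
    exact hr.symm
  -- the bijection
  let ι : ZMod p →+* k := ZMod.castHom dvd_rfl k
  have hev : ∀ a : ZMod p, Polynomial.eval₂ (Int.castRingHom k) (ι a) f =
      ι ((f.map (Int.castRingHom (ZMod p))).eval a) := by
    intro a
    rw [eval_map, hom_eval₂, RingHom.ext_int (ι.comp (Int.castRingHom (ZMod p))) (Int.castRingHom k)]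
  have himage : ∀ a : k, a ^ (p : ℕ) = a → ∃ b : ZMod p, ι b = a := by
    intro a ha
    have hne : (X ^ (p : ℕ) - X : k[X]) ≠ 0 := FiniteField.X_pow_card_sub_X_ne_zero k p.2.one_lt
    have hsub : (Finset.univ.image ι) ⊆ (X ^ (p : ℕ) - X : k[X]).roots.toFinset := by
      intro x hx
      obtain ⟨b, _, rfl⟩ := Finset.mem_image.mp hx
      rw [Multiset.mem_toFinset, mem_roots hne, IsRoot.def, eval_sub, eval_pow, eval_X, sub_eq_zero,
        ← map_pow, ZMod.pow_card]
    have hcard : (X ^ (p : ℕ) - X : k[X]).roots.toFinset.card ≤ (Finset.univ.image ι).card := by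
      rw [Finset.card_image_of_injective _ ι.injective, Finset.card_univ, ZMod.card]
      refine (Multiset.toFinset_card_le _).trans ((card_roots' _).trans ?_)
      rw [FiniteField.X_pow_card_sub_X_natDegree_eq k p.2.one_lt]
    have hmem : a ∈ (X ^ (p : ℕ) - X : k[X]).roots.toFinset := by
      rw [Multiset.mem_toFinset, mem_roots hne]
      simp [ha]
    rw [← Finset.eq_of_subset_of_card_le hsub hcard] at hmem
    obtain ⟨b, _, hb⟩ := Finset.mem_image.mp hmem
    exact ⟨b, hb⟩
  rw [rootCount, ← Nat.card_eq_finsetCard]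
  symm
  have hfun : ∀ a : {a : ZMod p // (f.map (Int.castRingHom (ZMod p))).eval a = 0},
      ∃ r : R, red r = ι a.1 := fun a => hsurj _ (by rw [hev, a.2, map_zero])
  choose F hFspec using hfun
  refine Nat.card_congr (Equiv.ofBijective (fun a => ⟨(F a : L), Finset.mem_filter.mpr
    ⟨(F a).2, hfix _ (by rw [hFspec, ← map_pow, ZMod.pow_card])⟩⟩) ⟨?_, ?_⟩)
  · intro a b h
    have h' : F a = F b := Subtype.ext (congrArg (fun z => z.1) h)
    exact Subtype.ext (ι.injective (by rw [← hFspec, ← hFspec, h']))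
  · rintro ⟨r, hr⟩
    obtain ⟨hrR, hrfix⟩ := Finset.mem_filter.mp hr
    obtain ⟨b, hb⟩ := himage _ (hfix' ⟨r, hrR⟩ hrfix)
    have hb0 : (f.map (Int.castRingHom (ZMod p))).eval b = 0 := by
      apply ι.injective
      rw [← hev, hb, map_zero]
      exact hroot _
    refine ⟨⟨b, hb0⟩, Subtype.ext ?_⟩
    exact congrArg (fun z : R => (z : L)) (hinj ((hFspec ⟨b, hb0⟩).trans hb))

/-- weighted prime sum -/
def countSum (c : Nat.Primes → ℕ) (s : ℝ) : ℝ :=
  ∑' p : Nat.Primes, (c p : ℝ) * (p : ℝ) ^ (-s)

lemma summable_countSum {c : Nat.Primes → ℕ} {B : ℕ} (hB : ∀ p, c p ≤ B) {s : ℝ} (hs : 1 < s) :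
    Summable fun p : Nat.Primes => (c p : ℝ) * (p : ℝ) ^ (-s) := by
  refine Summable.of_nonneg_of_le (fun p => by positivity) (fun p => ?_)
    (((Real.summable_nat_rpow.mpr (by linarith : -s < -1)).comp_injective
      Nat.Primes.coe_nat_injective).mul_left (B : ℝ))
  exact mul_le_mul_of_nonneg_right (by exact_mod_cast hB p) (by positivity)

lemma conjCount_le {G : Type*} [Group G] [Finite G] (φ : G) (D : Subgroup G) :
    conjCount φ D ≤ Nat.card G := Nat.card_le_card_of_injective _ Subtype.val_injective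

lemma countSum_conjCount (D : Subgroup (L ≃ₐ[ℚ] L)) :
    (fun s : ℝ => countSum (fun p => conjCount (frobRes L p) D) s +
      (Nat.card D : ℝ) * Real.log (s - 1)) =O[𝓝[>] (1 : ℝ)] fun _ => (1 : ℝ) := by
  classical
  obtain ⟨t, ht, hstab, hasymp⟩ := exists_stabilized L D
  obtain ⟨bad, hbad⟩ := card_fixed_eq_rootCount L ht
  set R : Finset L := Finset.univ.image fun g : L ≃ₐ[ℚ] L => g t
  have heq : ∀ p, p ∉ bad → conjCount (frobRes L p) D =
      Nat.card D * rootCount (minpoly ℤ t) p := by
    intro p hp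
    rw [← hbad p hp, conjCount, Nat.card_eq_fintype_card, Fintype.card_subtype,
      Finset.card_eq_sum_card_fiberwise (f := fun x : L ≃ₐ[ℚ] L => x t)
        (t := R.filter fun r => frobRes L p r = r)]
    · rw [mul_comm, ← smul_eq_mul, ← Finset.sum_const]
      refine Finset.sum_congr rfl fun r hr => ?_
      obtain ⟨hrR, hrfix⟩ := Finset.mem_filter.mp hr
      obtain ⟨g, _, hg⟩ := Finset.mem_image.mp hrR
      rw [← Nat.card_eq_finsetCard]
      refine Nat.card_congr
        { toFun := fun x => ⟨g⁻¹ * x.1, (hstab _).mp ?_⟩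
          invFun := fun d => ⟨g * d.1, Finset.mem_filter.mpr
            ⟨Finset.mem_filter.mpr ⟨Finset.mem_univ _, (hstab _).mp ?_⟩, ?_⟩⟩
          left_inv := fun x => Subtype.ext (mul_inv_cancel_left _ _)
          right_inv := fun d => Subtype.ext (inv_mul_cancel_left _ _) }
      · rw [AlgEquiv.mul_apply, (Finset.mem_filter.mp x.2).2, ← hg]
        exact g.symm_apply_apply t
      · rw [AlgEquiv.mul_apply, AlgEquiv.mul_apply, AlgEquiv.mul_apply, (hstab _).mpr d.2, hg,
          hrfix, ← hg]
        exact (g * d.1).symm_apply_eq.mpr (by rw [AlgEquiv.mul_apply, (hstab _).mpr d.2])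
      · rw [AlgEquiv.mul_apply, (hstab _).mpr d.2, hg]
    · intro x hx
      have hx' := (hstab _).mpr (Finset.mem_filter.mp hx).2
      refine Finset.mem_filter.mpr ⟨Finset.mem_image.mpr ⟨x, Finset.mem_univ _, rfl⟩, ?_⟩
      have h2 : x.symm (frobRes L p (x t)) = t := hx'
      exact (x.symm_apply_eq.mp h2)
  have hdiff : (fun s : ℝ => countSum (fun p => conjCount (frobRes L p) D) s -
      (Nat.card D : ℝ) * rootSum (minpoly ℤ t) s) =O[𝓝[>] (1 : ℝ)] fun _ => (1 : ℝ) := by
    refine IsBigO.of_bound (∑ p ∈ bad, |(conjCount (frobRes L p) D : ℝ) -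
      (Nat.card D : ℝ) * rootCount (minpoly ℤ t) p|) ?_
    filter_upwards [self_mem_nhdsWithin] with s (hs : 1 < s)
    rw [countSum, rootSum, ← tsum_mul_left,
      ← (summable_countSum (fun p => conjCount_le _ D) hs).tsum_sub
        ((summable_rootSum (minpoly.monic ht) hs).mul_left _), norm_one, mul_one, Real.norm_eq_abs,
      tsum_eq_sum (s := bad) fun p hp => by rw [heq p hp]; push_cast; ring]
    refine (Finset.abs_sum_le_sum_abs _ _).trans (Finset.sum_le_sum fun p _ => ?_)
    rw [← mul_assoc, ← sub_mul, abs_mul]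
    refine mul_le_of_le_one_right (abs_nonneg _) ?_
    rw [abs_of_nonneg (by positivity)]
    exact Real.rpow_le_one_of_one_le_of_nonpos (by exact_mod_cast p.2.one_le) (by linarith)
  refine (hdiff.add (hasymp.const_mul_left (Nat.card D : ℝ))).congr_left fun s => ?_
  ring

/-- counting elements of `G` conjugating `φ` to a generator of `D` -/
def genCount {G : Type*} [Group G] (φ : G) (D : Subgroup G) : ℕ :=
  Nat.card {x : G // Subgroup.zpowers (x⁻¹ * φ * x) = D}

def numGen {G : Type*} [Group G] (D : Subgroup G) : ℕ :=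
  Nat.card {d : G // Subgroup.zpowers d = D}

open scoped Classical in
lemma card_mem_eq_sum {G : Type*} [Group G] [Finite G] [Fintype (Subgroup G)] {α : Type*} [Finite α]
    (f : α → G) (D : Subgroup G) :
    Nat.card {x : α // f x ∈ D} =
      ∑ D' ∈ Finset.univ.filter (fun D' : Subgroup G => D' ≤ D),
        Nat.card {x : α // Subgroup.zpowers (f x) = D'} := by
  let _ := Fintype.ofFinite α
  simp only [Nat.card_eq_fintype_card, Fintype.card_subtype]
  rw [Finset.card_eq_sum_card_fiberwise (f := fun x => Subgroup.zpowers (f x))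
    (t := Finset.univ.filter fun D' : Subgroup G => D' ≤ D)]
  · refine Finset.sum_congr rfl fun D' hD' => ?_
    congr 1
    ext x
    simp only [Finset.mem_filter, Finset.mem_univ, true_and] at hD' ⊢
    constructor
    · exact And.right
    · intro h
      exact ⟨hD' (h ▸ Subgroup.mem_zpowers (f x)), h⟩
  · intro x hx
    simpa [Subgroup.zpowers_le] using hx

lemma genCount_le {G : Type*} [Group G] [Finite G] (φ : G) (D : Subgroup G) :
    genCount φ D ≤ Nat.card G := Nat.card_le_card_of_injective _ Subtype.val_injective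

lemma countSum_genCount (D : Subgroup (L ≃ₐ[ℚ] L)) :
    (fun s : ℝ => countSum (fun p => genCount (frobRes L p) D) s +
      (numGen D : ℝ) * Real.log (s - 1)) =O[𝓝[>] (1 : ℝ)] fun _ => (1 : ℝ) := by
  classical
  let _ : Fintype (Subgroup (L ≃ₐ[ℚ] L)) := Fintype.ofFinite _
  induction D using WellFoundedLT.induction with
  | ind D ih =>
    have hlt : (fun s : ℝ => ∑ D' ∈ Finset.univ.filter (fun D' => D' < D),
        (countSum (fun p => genCount (frobRes L p) D') s + (numGen D' : ℝ) * Real.log (s - 1)))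
          =O[𝓝[>] (1 : ℝ)] fun _ => (1 : ℝ) :=
      IsBigO.fun_sum fun D' hD' => ih D' (Finset.mem_filter.mp hD').2
    refine ((countSum_conjCount L D).sub hlt).congr' ?_ EventuallyEq.rfl
    filter_upwards [self_mem_nhdsWithin] with s (hs : 1 < s)
    have hsplit : Finset.univ.filter (fun D' => D' ≤ D) =
        insert D (Finset.univ.filter (fun D' : Subgroup (L ≃ₐ[ℚ] L) => D' < D)) := by
      ext D'
      simp [le_iff_lt_or_eq, or_comm]
    have hnot : D ∉ Finset.univ.filter (fun D' : Subgroup (L ≃ₐ[ℚ] L) => D' < D) := by simp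
    have h1 : ∀ p, conjCount (frobRes L p) D = genCount (frobRes L p) D +
        ∑ D' ∈ Finset.univ.filter (fun D' => D' < D), genCount (frobRes L p) D' := fun p => by
      rw [conjCount, card_mem_eq_sum, hsplit, Finset.sum_insert hnot]
      rfl
    have h2 : Nat.card D = numGen D +
        ∑ D' ∈ Finset.univ.filter (fun D' => D' < D), numGen D' := by
      have := card_mem_eq_sum (fun x : L ≃ₐ[ℚ] L => x) D
      rw [hsplit, Finset.sum_insert hnot] at this
      exact this
    have h3 : countSum (fun p => conjCount (frobRes L p) D) s =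
        countSum (fun p => genCount (frobRes L p) D) s +
          ∑ D' ∈ Finset.univ.filter (fun D' => D' < D),
            countSum (fun p => genCount (frobRes L p) D') s := by
      unfold countSum
      rw [← Summable.tsum_finsetSum fun D' _ => summable_countSum (fun p => genCount_le _ D') hs,
        ← (summable_countSum (fun p => genCount_le _ D) hs).tsum_add
          (summable_sum fun D' _ => summable_countSum (fun p => genCount_le _ D') hs)]
      refine tsum_congr fun p => ?_
      simp only [h1 p]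
      push_cast
      rw [add_mul, Finset.sum_mul]
    rw [h3, Finset.sum_add_distrib, ← Finset.sum_mul, h2]
    push_cast
    ring

lemma exists_frobRes_conj_gen (σ : L ≃ₐ[ℚ] L) (S : Finset ℕ) :
    ∃ (p : Nat.Primes) (x : L ≃ₐ[ℚ] L), (p : ℕ) ∉ S ∧
      Subgroup.zpowers (x⁻¹ * frobRes L p * x) = Subgroup.zpowers σ := by
  classical
  by_contra hcon
  push Not at hcon
  set D := Subgroup.zpowers σ
  have hgen : 0 < numGen D := by
    have : Nonempty {d : L ≃ₐ[ℚ] L // Subgroup.zpowers d = D} := ⟨⟨σ, rfl⟩⟩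
    exact Nat.card_pos
  have hzero : ∀ p : Nat.Primes, p ∉ S.subtype Nat.Prime → genCount (frobRes L p) D = 0 := by
    intro p hp
    have : IsEmpty {x : L ≃ₐ[ℚ] L // Subgroup.zpowers (x⁻¹ * frobRes L p * x) = D} :=
      ⟨fun x => hcon p x.1 (fun h => hp (Finset.mem_subtype.mpr h)) x.2⟩
    exact Nat.card_of_isEmpty
  obtain ⟨C, hC⟩ := (countSum_genCount L D).bound
  have hbot : Tendsto (fun s : ℝ => Real.log (s - 1)) (𝓝[>] 1) atBot := by
    have h : Tendsto (fun s : ℝ => s - 1) (𝓝[>] 1) (𝓝[>] 0) := by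
      refine tendsto_nhdsWithin_iff.mpr ⟨?_, ?_⟩
      · simpa using ((continuous_sub_right (1 : ℝ)).tendsto 1).mono_left nhdsWithin_le_nhds
      · filter_upwards [self_mem_nhdsWithin] with s (hs : 1 < s) using sub_pos.mpr hs
    exact (Real.tendsto_log_nhdsGT_zero).comp h
  set B : ℝ := ∑ p ∈ S.subtype Nat.Prime, (genCount (frobRes L p) D : ℝ) with hB
  have hev := hbot.eventually (eventually_lt_atBot (-(|C| + B + 1)))
  obtain ⟨s, hs1, hs2, hs3⟩ := (hC.and (hev.and self_mem_nhdsWithin)).exists
  rw [Real.norm_eq_abs, norm_one, mul_one] at hs1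
  have hs3' : (1 : ℝ) < s := hs3
  have hcs : countSum (fun p => genCount (frobRes L p) D) s ≤ B := by
    have hz : ∀ p ∉ S.subtype Nat.Prime,
        (genCount (frobRes L p) D : ℝ) * (p : ℝ) ^ (-s) = 0 := fun p hp => by
      simp [hzero p hp]
    refine le_of_eq_of_le (tsum_eq_sum (f := fun p : Nat.Primes =>
      (genCount (frobRes L p) D : ℝ) * (p : ℝ) ^ (-s)) hz) ?_
    refine Finset.sum_le_sum fun p _ => mul_le_of_le_one_right (Nat.cast_nonneg _) ?_
    exact Real.rpow_le_one_of_one_le_of_nonpos (by exact_mod_cast p.2.one_le) (by linarith)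
  have hg : (1 : ℝ) ≤ numGen D := by exact_mod_cast hgen
  have hB0 : 0 ≤ B := Finset.sum_nonneg fun p _ => Nat.cast_nonneg _
  have hl : (numGen D : ℝ) * Real.log (s - 1) ≤ Real.log (s - 1) :=
    mul_le_of_one_le_left (by linarith [abs_nonneg C]) hg
  linarith [(abs_le.mp hs1).1, le_abs_self C, abs_nonneg C]

/-- **Frobenius density theorem**: powers of Frobenius elements at primes outside a finite set
are dense in `Gal(ℚ̄/ℚ)`. -/
theorem exists_frobenius_pow (E : IntermediateField ℚ QBar) [FiniteDimensional ℚ E]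
    (σ : GalQBar) (S : Finset ℕ) :
    ∃ (ℓ : ℕ) (A : ValuationSubring QBar) (τ : GalQBar) (k : ℕ),
      ℓ.Prime ∧ ℓ ∉ S ∧ A.LiesOverPrime ℓ ∧ A.IsFrobeniusAt τ ℓ ∧
        ∀ x ∈ E, (τ ^ k) x = σ x := by
  have : IsGalois ℚ QBar := FLTAgent.Alg.qb_isGalois
  let M := IntermediateField.normalClosure ℚ E QBar
  have : Normal ℚ M := normalClosure.normal ℚ E QBar
  obtain ⟨p, x, hpS, hx⟩ := exists_frobRes_conj_gen M (AlgEquiv.restrictNormalHom M σ) S
  obtain ⟨g, hg⟩ := AlgEquiv.restrictNormalHom_surjective (F := ℚ) (K₁ := M) QBar x⁻¹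
  have hmem : AlgEquiv.restrictNormalHom M σ ∈
      Submonoid.powers (x⁻¹ * frobRes M p * x) := by
    rw [mem_powers_iff_mem_zpowers, hx]
    exact Subgroup.mem_zpowers _
  obtain ⟨k, hk⟩ := hmem
  refine ⟨p, g • placeAt p, g * frobAt p * g⁻¹, k, p.2, hpS,
    liesOverPrime_smul g (placeAt_liesOver p), isFrobeniusAt_conj (isFrobeniusAt_frobAt p) g,
    fun z hz => ?_⟩
  have hzM : z ∈ M := E.le_normalClosure hz
  have hkey : AlgEquiv.restrictNormalHom M ((g * frobAt p * g⁻¹) ^ k) =
      AlgEquiv.restrictNormalHom M σ := by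
    rw [map_pow, map_mul, map_mul, map_inv, hg, inv_inv]
    exact hk
  have h1 := AlgEquiv.restrictNormal_commutes ((g * frobAt p * g⁻¹) ^ k) M ⟨z, hzM⟩
  have h2 := AlgEquiv.restrictNormal_commutes σ M ⟨z, hzM⟩
  exact h1.symm.trans ((congrArg (algebraMap M QBar) (DFunLike.congr_fun hkey ⟨z, hzM⟩)).trans h2)

/-- Two functions on `Gal(ℚ̄/ℚ)` factoring through finite extensions and agreeing at all powers
of Frobenius elements outside a finite set of primes are equal. -/
theorem eq_of_forall_frobenius_pow {α : Type*} (f g : GalQBar → α)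
    (E : IntermediateField ℚ QBar) [FiniteDimensional ℚ E]
    (hf : ∀ σ τ : GalQBar, (∀ x ∈ E, σ x = τ x) → f σ = f τ)
    (hg : ∀ σ τ : GalQBar, (∀ x ∈ E, σ x = τ x) → g σ = g τ) (S : Finset ℕ)
    (h : ∀ (ℓ : ℕ) (A : ValuationSubring QBar) (τ : GalQBar) (k : ℕ),
      ℓ.Prime → ℓ ∉ S → A.LiesOverPrime ℓ → A.IsFrobeniusAt τ ℓ → f (τ ^ k) = g (τ ^ k)) :
    f = g := by
  funext σ
  obtain ⟨ℓ, A, τ, k, hℓ, hS, hA, hF, hk⟩ := exists_frobenius_pow E σ S
  rw [← hf _ _ hk, ← hg _ _ hk]
  exact h ℓ A τ k hℓ hS hA hF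

end FLTAgent.Chebotarev
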