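import Fermat.Prelude.Def_EllipticCurve_FrobeniusTrace
import Fermat.Prelude.Def_FLTPrelim_Ramification
import Mathlib

/-!
Elementwise description of Frobenius elements and their conjugates.
-/

set_option autoImplicit false

open scoped Pointwise

namespace FLTAgent.Chebotarev

variable {K L : Type*} [Field K] [Field L] [Algebra K L]

lemma frob_apply_mem {A : ValuationSubring L} {σ : L ≃ₐ[K] L} {q : ℕ}
    (h : A.IsFrobeniusAt σ q) {x : L} (hx : x ∈ A) : σ x ∈ A := by
  have h1 := h.mem_decompositionSubgroup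
  rw [MulAction.mem_stabilizer_iff] at h1
  have := ValuationSubring.smul_mem_pointwise_smul σ x A hx
  rwa [h1] at this

lemma frob_sub_pow_mem {A : ValuationSubring L} {σ : L ≃ₐ[K] L} {q : ℕ}
    (h : A.IsFrobeniusAt σ q) {x : L} (hx : x ∈ A) : σ x - x ^ q ∈ A.nonunits := by
  have h2 := h.smul_residue_eq (IsLocalRing.residue A ⟨x, hx⟩)
  rw [← map_pow] at h2
  have h3 : IsLocalRing.residue A (⟨σ x, frob_apply_mem h hx⟩ - ⟨x, hx⟩ ^ q) = 0 := by
    rw [map_sub, sub_eq_zero]
    exact h2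
  rw [IsLocalRing.residue_eq_zero_iff, ← ValuationSubring.coe_mem_nonunits_iff] at h3
  simpa using h3

lemma isFrobeniusAt_of_forall {A : ValuationSubring L} {σ : L ≃ₐ[K] L} {q : ℕ}
    (hdec : σ ∈ A.decompositionSubgroup K) (h : ∀ x ∈ A, σ x - x ^ q ∈ A.nonunits) :
    A.IsFrobeniusAt σ q := by
  refine ⟨hdec, fun r => ?_⟩
  obtain ⟨⟨x, hx⟩, rfl⟩ := IsLocalRing.residue_surjective r
  rw [← map_pow]
  change IsLocalRing.residue A ((⟨σ, hdec⟩ : A.decompositionSubgroup K) • (⟨x, hx⟩ : A)) = _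
  rw [← sub_eq_zero, ← map_sub, IsLocalRing.residue_eq_zero_iff,
    ← ValuationSubring.coe_mem_nonunits_iff]
  exact h x hx

lemma smul_mem_nonunits {A : ValuationSubring L} (g : L ≃ₐ[K] L) {x : L} (hx : x ∈ A.nonunits) :
    g x ∈ (g • A).nonunits := by
  rw [ValuationSubring.mem_nonunits_iff_or] at hx ⊢
  rcases hx with rfl | hx
  · exact Or.inl (map_zero g)
  · refine Or.inr ?_
    rw [← map_inv₀]
    exact fun h => hx (ValuationSubring.smul_mem_pointwise_smul_iff.mp h)

lemma liesOverPrime_smul {A : ValuationSubring L} {q : ℕ} (g : L ≃ₐ[K] L)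
    (h : A.LiesOverPrime q) : (g • A).LiesOverPrime q := by
  have := smul_mem_nonunits g h
  rwa [map_natCast] at this

lemma isFrobeniusAt_conj {A : ValuationSubring L} {σ : L ≃ₐ[K] L} {q : ℕ}
    (h : A.IsFrobeniusAt σ q) (g : L ≃ₐ[K] L) :
    (g • A).IsFrobeniusAt (g * σ * g⁻¹) q := by
  refine isFrobeniusAt_of_forall ?_ fun x hx => ?_
  · rw [MulAction.mem_stabilizer_iff, mul_smul, mul_smul, inv_smul_smul]
    have h1 := h.mem_decompositionSubgroup
    rw [MulAction.mem_stabilizer_iff] at h1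
    rw [h1]
  · have hy : g⁻¹ x ∈ A := by
      rw [ValuationSubring.mem_pointwise_smul_iff_inv_smul_mem] at hx
      exact hx
    have := smul_mem_nonunits g (frob_sub_pow_mem h hy)
    rwa [map_sub, map_pow, show g (g⁻¹ x) = x from g.apply_symm_apply x] at this

end FLTAgent.Chebotarev
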