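import Fermat.Agent.Chebotarev.Split
import Fermat.Agent.Chebotarev.FrobConj

/-!
Frobenius classes and roots modulo `p` in a finite Galois extension of `ℚ` inside `ℚ̄`.
-/

set_option autoImplicit false

noncomputable section

namespace FLTAgent.Chebotarev

open Filter Topology NumberField Asymptotics Polynomial

abbrev QBar : Type := AlgebraicClosure ℚ

abbrev GalQBar : Type := QBar ≃ₐ[ℚ] QBar

variable (L : IntermediateField ℚ QBar) [FiniteDimensional ℚ L] [Normal ℚ L]

lemma coe_mem_valuationSubring {A : ValuationSubring QBar} {x : QBar} (hx : IsIntegral ℤ x) :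
    x ∈ A := by
  obtain ⟨y, hy⟩ := IsIntegrallyClosed.isIntegral_iff.mp
    (IsIntegral.tower_top (A := A) hx : IsIntegral A x)
  rw [← hy]
  exact y.2

/-- reduction of an algebraic integer at a place -/
def redAt (A : ValuationSubring QBar) :
    integralClosure ℤ QBar →+* IsLocalRing.ResidueField A :=
  (IsLocalRing.residue A).comp
    { toFun := fun b => ⟨(b : QBar), coe_mem_valuationSubring b.2⟩
      map_one' := Subtype.ext rfl
      map_mul' := fun _ _ => Subtype.ext rfl
      map_zero' := Subtype.ext rfl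
      map_add' := fun _ _ => Subtype.ext rfl }

lemma redAt_eq_iff {A : ValuationSubring QBar} (a b : integralClosure ℤ QBar) :
    redAt A a = redAt A b ↔ (a : QBar) - (b : QBar) ∈ A.nonunits := by
  rw [← sub_eq_zero, ← map_sub, redAt, RingHom.comp_apply, IsLocalRing.residue_eq_zero_iff,
    ← ValuationSubring.coe_mem_nonunits_iff]
  simp

lemma charP_residue {A : ValuationSubring QBar} {p : ℕ} (hp : p.Prime) (h : A.LiesOverPrime p) :
    CharP (IsLocalRing.ResidueField A) p := by
  refine (CharP.charP_iff_prime_eq_zero hp).mpr ?_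
  have : (p : A) ∈ IsLocalRing.maximalIdeal A := by
    rw [← ValuationSubring.coe_mem_nonunits_iff]
    exact h
  rw [← map_natCast (IsLocalRing.residue A), IsLocalRing.residue_eq_zero_iff]
  exact this

/-- If an algebraic integer `d ≠ 0` lies in the maximal ideal of a place above `p`, then `p`
divides the constant term of its minimal polynomial. -/
lemma dvd_coeff_minpoly {A : ValuationSubring QBar} {p : ℕ} (hp : p.Prime)
    (hA : A.LiesOverPrime p) (d : integralClosure ℤ QBar) (hd : redAt A d = 0) :
    (p : ℤ) ∣ (minpoly ℤ (d : QBar)).coeff 0 := by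
  have hcp := charP_residue hp hA
  rw [← CharP.intCast_eq_zero_iff (IsLocalRing.ResidueField A) p]
  have h : aeval d (minpoly ℤ (d : QBar)) = 0 := by
    apply Subtype.ext
    rw [← Subalgebra.coe_val, ← Polynomial.aeval_algHom_apply, map_zero]
    exact minpoly.aeval ℤ (d : QBar)
  have h2 := congrArg (redAt A) h
  rw [map_zero, aeval_def, hom_eval₂, hd, eval₂_at_zero] at h2
  simpa using h2

/-- counting elements of `G` conjugating `φ` into a subgroup -/
def conjCount {G : Type*} [Group G] (φ : G) (D : Subgroup G) : ℕ :=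
  Nat.card {x : G // x⁻¹ * φ * x ∈ D}

lemma exists_integral_generator (K : IntermediateField ℚ L) :
    ∃ θ : 𝓞 K, Algebra.adjoin ℚ ({(θ : K)} : Set K) = ⊤ := by
  have : NumberField K := { }
  obtain ⟨α, hα⟩ := Field.exists_primitive_element ℚ K
  obtain ⟨y, hy0, hy⟩ := exists_integral_multiples ℤ ℚ ({α} : Finset K)
  have hint := hy α (Finset.mem_singleton_self α)
  refine ⟨⟨y • α, hint⟩, ?_⟩
  have hα' : Algebra.adjoin ℚ ({α} : Set K) = ⊤ := by
    rw [← IntermediateField.adjoin_simple_toSubalgebra_of_isAlgebraic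
      (Algebra.IsAlgebraic.isAlgebraic α), hα, IntermediateField.top_toSubalgebra]
  rw [eq_top_iff, ← hα']
  refine Algebra.adjoin_le (Set.singleton_subset_iff.mpr ?_)
  have h1 := Subalgebra.smul_mem _ (Algebra.self_mem_adjoin_singleton ℚ (y • α : K)) ((y : ℚ)⁻¹)
  have h2 : ((y : ℚ)⁻¹) • (y • α : K) = α := by
    rw [← Int.cast_smul_eq_zsmul ℚ, smul_smul, inv_mul_cancel₀ (by exact_mod_cast hy0), one_smul]
  rwa [h2] at h1

/-- the datum attached to a subgroup: an algebraic integer with that stabilizer -/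
lemma exists_stabilized (D : Subgroup (L ≃ₐ[ℚ] L)) :
    ∃ t : L, IsIntegral ℤ t ∧ (∀ g : L ≃ₐ[ℚ] L, g t = t ↔ g ∈ D) ∧
      (fun s : ℝ => rootSum (minpoly ℤ t) s + Real.log (s - 1)) =O[𝓝[>] (1 : ℝ)]
        fun _ => (1 : ℝ) := by
  let K : IntermediateField ℚ L := IntermediateField.fixedField D
  have : NumberField K := { }
  obtain ⟨θ, hθ⟩ := exists_integral_generator L K
  refine ⟨((θ : K) : L), map_isIntegral_int (algebraMap K L) θ.isIntegral_coe, fun g => ?_, ?_⟩
  · constructor
    · intro hg
      rw [← IntermediateField.fixingSubgroup_fixedField D, IntermediateField.mem_fixingSubgroup_iff]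
      intro z hz
      have hmem : (⟨z, hz⟩ : K) ∈ Algebra.adjoin ℚ ({(θ : K)} : Set K) := by
        rw [hθ]; trivial
      have heq : Algebra.adjoin ℚ ({(θ : K)} : Set K) ≤
          AlgHom.equalizer ((g : L →ₐ[ℚ] L).comp K.val) K.val := by
        refine Algebra.adjoin_le (Set.singleton_subset_iff.mpr ?_)
        exact hg
      exact heq hmem
    · intro hg
      exact (θ : K).2 ⟨g, hg⟩
  · have h := rootSum_add_log_isBigO hθ
    have hmin : minpoly ℤ θ = minpoly ℤ ((θ : K) : L) := by
      rw [← minpoly.algebraMap_eq RingOfIntegers.coe_injective θ,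
        ← minpoly.algebraMap_eq (algebraMap K L).injective (θ : K)]
      rfl
    rwa [hmin] at h

lemma exists_galois_mapsTo {t : L} (ht : IsIntegral ℤ t) {a : L}
    (ha : aeval a (minpoly ℤ t) = 0) : ∃ g : L ≃ₐ[ℚ] L, g t = a := by
  have h1 : minpoly ℚ t = (minpoly ℤ t).map (algebraMap ℤ ℚ) :=
    minpoly.isIntegrallyClosed_eq_field_fractions' ℚ ht
  have h2 : aeval a (minpoly ℚ t) = 0 := by rwa [h1, aeval_map_algebraMap]
  have h3 : minpoly ℚ t = minpoly ℚ a :=
    minpoly.eq_of_irreducible_of_monic (minpoly.irreducible (IsIntegral.of_finite ℚ t)) h2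
      (minpoly.monic (IsIntegral.of_finite ℚ t))
  exact (Normal.minpoly_eq_iff_mem_orbit L).mp h3.symm

end FLTAgent.Chebotarev
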