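import Fermat.Agent.Chebotarev.Zeta
import Mathlib.NumberTheory.NumberField.Ideal.KummerDedekind
import Mathlib.RingTheory.Discriminant
import Mathlib.FieldTheory.Minpoly.IsIntegrallyClosed
import Mathlib.Analysis.PSeries

/-!
Counting roots of an integral polynomial modulo `p`, averaged over `p`.
-/

set_option autoImplicit false

noncomputable section

namespace FLTAgent.Chebotarev

open Filter Topology NumberField Ideal UniqueFactorizationMonoid Asymptotics Polynomial

/-- number of roots of `f` modulo `p` -/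
def rootCount (f : ℤ[X]) (p : ℕ) : ℕ :=
  Nat.card {a : ZMod p // (f.map (Int.castRingHom (ZMod p))).eval a = 0}

def rootSum (f : ℤ[X]) (s : ℝ) : ℝ := ∑' p : Nat.Primes, (rootCount f p : ℝ) * (p : ℝ) ^ (-s)

variable {K : Type*} [Field K] [NumberField K]

lemma exponent_ne_zero_of_adjoin_eq_top {θ : 𝓞 K}
    (hθ : Algebra.adjoin ℚ ({(θ : K)} : Set K) = ⊤) : RingOfIntegers.exponent θ ≠ 0 := by
  have hintQ : IsIntegral ℚ (θ : K) := IsIntegral.of_finite ℚ _
  let B : PowerBasis ℚ K := PowerBasis.ofAdjoinEqTop' hintQ hθ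
  have hgen : B.gen = (θ : K) := PowerBasis.ofAdjoinEqTop'_gen hintQ hθ
  have hint : IsIntegral ℤ B.gen := by rw [hgen]; exact θ.isIntegral_coe
  have hd : IsIntegral ℤ (Algebra.discr ℚ B.basis) := by
    refine Algebra.discr_isIntegral ℚ fun i => ?_
    rw [B.coe_basis]
    exact hint.pow _
  obtain ⟨D, hD⟩ := IsIntegrallyClosed.isIntegral_iff.mp hd
  have hD0 : D ≠ 0 := by
    rintro rfl
    exact Algebra.discr_not_zero_of_basis ℚ B.basis (by rw [← hD]; simp)
  have hmem : (D : 𝓞 K) ∈ conductor ℤ θ := by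
    rw [mem_conductor_iff]
    intro b
    have h := Algebra.discr_mul_isIntegral_mem_adjoin ℚ hint (b.isIntegral_coe) (R := ℤ)
    rw [hgen, ← hD] at h
    have h2 : ((D : 𝓞 K) * b : 𝓞 K) ∈ Algebra.adjoin ℤ ({θ} : Set (𝓞 K)) := by
      let f : 𝓞 K →ₐ[ℤ] K := IsScalarTower.toAlgHom ℤ (𝓞 K) K
      have hmap : (Algebra.adjoin ℤ ({θ} : Set (𝓞 K))).map f =
          Algebra.adjoin ℤ ({(θ : K)} : Set K) := AlgHom.map_adjoin_singleton f θ
      have h' : f ((D : 𝓞 K) * b) ∈ (Algebra.adjoin ℤ ({θ} : Set (𝓞 K))).map f := by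
        rw [hmap]
        simpa [f, Algebra.smul_def] using h
      obtain ⟨y, hy, hyeq⟩ := h'
      rwa [← RingOfIntegers.coe_injective hyeq]
    exact h2
  intro h0
  rw [RingOfIntegers.exponent, absNorm_eq_zero_iff] at h0
  have : D ∈ Ideal.under ℤ (conductor ℤ θ) := by
    simpa [Ideal.under_def] using hmem
  rw [h0] at this
  exact hD0 (by simpa using this)

abbrev PrimesAbove (K : Type*) [Field K] [NumberField K] (p : Nat.Primes) :=
  ↥(primesOver (span {((p : ℕ) : ℤ)}) (𝓞 K))

instance finite_primesAbove (p : Nat.Primes) : Finite (PrimesAbove K p) := by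
  have : (span {((p : ℕ) : ℤ)}).IsMaximal := by
    have : Fact (p : ℕ).Prime := ⟨p.2⟩
    exact Int.ideal_span_isMaximal_of_prime p
  exact primesOver_finite (span {((p : ℕ) : ℤ)}) (𝓞 K)

lemma absNorm_primesAbove (p : Nat.Primes) (P : PrimesAbove K p) :
    absNorm P.1 = (p : ℕ) ^ (inertiaDeg P.1 ℤ) := by
  have : Fact (p : ℕ).Prime := ⟨p.2⟩
  have := P.2.2
  have : (span {((p : ℕ) : ℤ)}).IsMaximal := Int.ideal_span_isMaximal_of_prime p
  have := P.2.1
  have hne : P.1 ≠ ⊥ := ne_bot_of_liesOver_of_ne_bot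
    (by simp [p.2.ne_zero] : span {((p : ℕ) : ℤ)} ≠ ⊥) P.1
  have := P.2.1.isMaximal hne
  rw [absNorm_eq_pow_inertiaDeg' P.1 p.2, inertiaDeg'_eq_inertiaDeg]

lemma prime_primesAbove (p : Nat.Primes) (P : PrimesAbove K p) : Prime P.1 := by
  have := P.2.1
  have := P.2.2
  exact prime_of_isPrime
    (ne_bot_of_liesOver_of_ne_bot (by simp [p.2.ne_zero] : span {((p : ℕ) : ℤ)} ≠ ⊥) P.1)
    P.2.1

variable (K) in
def toPrimeIdeal (x : Σ p : Nat.Primes, PrimesAbove K p) : PrimeIdeal K :=
  ⟨x.2.1, prime_primesAbove x.1 x.2⟩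

lemma toPrimeIdeal_bijective : Function.Bijective (toPrimeIdeal K) := by
  constructor
  · rintro ⟨p, P⟩ ⟨q, Q⟩ h
    have hPQ : P.1 = Q.1 := congrArg Subtype.val h
    have hp := P.2.2.over
    have hq := Q.2.2.over
    rw [hPQ, ← hq, Ideal.span_singleton_eq_span_singleton, Int.associated_iff_natAbs] at hp
    obtain rfl : p = q := Subtype.ext (by simpa using hp)
    rw [Subtype.ext hPQ]
  · rintro ⟨P, hP⟩
    have hPp : P.IsPrime := isPrime_of_prime hP
    have hPm : P.IsMaximal := hPp.isMaximal hP.ne_zero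
    obtain ⟨p, n, _, hmem, hp, _⟩ := exists_prime_and_absNorm_eq_pow P
    have : Fact p.Prime := ⟨hp⟩
    have hover : P.LiesOver (span {(p : ℤ)}) := ⟨by
      refine (Int.ideal_span_isMaximal_of_prime p).eq_of_le (IsPrime.ne_top inferInstance) ?_
      rw [span_singleton_le_iff_mem, Ideal.under_def, Ideal.mem_comap]
      simpa using hmem⟩
    exact ⟨⟨⟨p, hp⟩, ⟨P, hPp, hover⟩⟩, rfl⟩

variable (K) in
def primesAboveSum (p : Nat.Primes) (s : ℝ) : ℝ :=
  ∑' P : PrimesAbove K p, normRpow s P.1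

lemma summable_primesAboveSum {s : ℝ} (hs : 1 < s) :
    Summable (fun p => primesAboveSum K p s) ∧
      ∑' p, primesAboveSum K p s = primeSum K s := by
  let e := Equiv.ofBijective _ (toPrimeIdeal_bijective (K := K))
  have hsum : Summable fun c : Σ p : Nat.Primes, PrimesAbove K p => normRpow s c.2.1 :=
    (e.summable_iff (f := fun P : PrimeIdeal K => normRpow s P.1)).mpr (summable_primeSum hs)
  refine ⟨hsum.sigma, ?_⟩
  unfold primeSum primesAboveSum
  rw [← hsum.tsum_sigma, ← e.tsum_eq (fun P : PrimeIdeal K => normRpow s P.1)]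
  rfl

lemma card_deg_one_eq_rootCount {θ : 𝓞 K} {p : Nat.Primes}
    (hp : ¬ (p : ℕ) ∣ RingOfIntegers.exponent θ) :
    Nat.card {P : PrimesAbove K p // inertiaDeg P.1 ℤ = 1} =
      rootCount (minpoly ℤ θ) p := by
  have : Fact (p : ℕ).Prime := ⟨p.2⟩
  let e := NumberField.Ideal.primesOverSpanEquivMonicFactorsMod hp
  have hdeg : ∀ Q : RingOfIntegers.monicFactorsMod θ (p : ℕ),
      inertiaDeg (e.symm Q).1 ℤ = Q.1.natDegree := fun Q =>
    NumberField.Ideal.inertiaDeg_primesOverSpanEquivMonicFactorsMod_symm_apply' hp Q.2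
  rw [Nat.card_congr (e.subtypeEquiv (q := fun Q => Q.1.natDegree = 1) fun P => by
    rw [← hdeg (e P), e.symm_apply_apply])]
  symm
  set g := (minpoly ℤ θ).map (Int.castRingHom (ZMod p)) with hg
  have hg0 : g ≠ 0 := map_monic_ne_zero (minpoly.monic θ.isIntegral)
  refine Nat.card_congr (Equiv.ofBijective (fun a => ⟨⟨X - C a.1, ?_⟩, natDegree_X_sub_C _⟩) ?_)
  · rw [RingOfIntegers.monicFactorsMod, Multiset.mem_toFinset,
      Polynomial.mem_normalizedFactors_iff hg0]
    exact ⟨irreducible_X_sub_C _, monic_X_sub_C _, dvd_iff_isRoot.mpr a.2⟩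
  · constructor
    · intro a b h
      have := congrArg (fun Q => Polynomial.coeff Q.1.1 0) h
      exact Subtype.ext (by simpa using this)
    · rintro ⟨⟨Q, hQ⟩, hQ1⟩
      rw [RingOfIntegers.monicFactorsMod, Multiset.mem_toFinset,
        Polynomial.mem_normalizedFactors_iff hg0] at hQ
      have hQ' : Q = X - C (-Q.coeff 0) := by
        rw [map_neg, sub_neg_eq_add]
        exact hQ.2.1.eq_X_add_C hQ1
      refine ⟨⟨-Q.coeff 0, ?_⟩, ?_⟩
      · exact dvd_iff_isRoot.mp (hQ' ▸ hQ.2.2)
      · exact Subtype.ext (Subtype.ext hQ'.symm)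

lemma card_primesAbove_le {θ : 𝓞 K} {p : Nat.Primes}
    (hp : ¬ (p : ℕ) ∣ RingOfIntegers.exponent θ) :
    Nat.card (PrimesAbove K p) ≤ (minpoly ℤ θ).natDegree := by
  have : Fact (p : ℕ).Prime := ⟨p.2⟩
  rw [Nat.card_congr (NumberField.Ideal.primesOverSpanEquivMonicFactorsMod hp),
    Nat.card_eq_fintype_card, Fintype.card_coe]
  set g := (minpoly ℤ θ).map (Int.castRingHom (ZMod p)) with hg
  have hg0 : g ≠ 0 := map_monic_ne_zero (minpoly.monic θ.isIntegral)
  refine (Multiset.toFinset_card_le _).trans (le_of_le_of_eq ?_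
    ((minpoly.monic θ.isIntegral).natDegree_map (Int.castRingHom (ZMod p))))
  change (normalizedFactors g).card ≤ g.natDegree
  have hmonic : ∀ Q ∈ normalizedFactors g, 1 ≤ Q.natDegree := fun Q hQ =>
    ((Polynomial.mem_normalizedFactors_iff hg0).mp hQ).1.natDegree_pos
  calc (normalizedFactors g).card = ((normalizedFactors g).map fun _ => 1).sum := by simp
    _ ≤ ((normalizedFactors g).map natDegree).sum := Multiset.sum_map_le_sum_map _ _ hmonic
    _ = (normalizedFactors g).prod.natDegree := by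
        rw [natDegree_multiset_prod _ (zero_notMem_normalizedFactors g)]
    _ ≤ g.natDegree := by
        exact natDegree_le_of_dvd (prod_normalizedFactors hg0).dvd hg0

lemma rootCount_le {f : ℤ[X]} (hf : f.Monic) (p : Nat.Primes) :
    rootCount f p ≤ f.natDegree := by
  have : Fact (p : ℕ).Prime := ⟨p.2⟩
  classical
  set g := f.map (Int.castRingHom (ZMod p))
  have hg : g ≠ 0 := (hf.map _).ne_zero
  calc rootCount f p = g.roots.toFinset.card := by
        rw [rootCount, ← Nat.card_eq_finsetCard]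
        exact Nat.card_congr (Equiv.subtypeEquivRight fun a => by simp [g, hg])
    _ ≤ g.roots.card := Multiset.toFinset_card_le _
    _ ≤ g.natDegree := card_roots' g
    _ = f.natDegree := hf.natDegree_map _

lemma summable_rootSum {f : ℤ[X]} (hf : f.Monic) {s : ℝ} (hs : 1 < s) :
    Summable fun p : Nat.Primes => (rootCount f p : ℝ) * (p : ℝ) ^ (-s) := by
  refine Summable.of_nonneg_of_le (fun p => by positivity) (fun p => ?_)
    (((Real.summable_nat_rpow.mpr (by linarith : -s < -1)).comp_injective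
      Nat.Primes.coe_nat_injective).mul_left (f.natDegree : ℝ))
  exact mul_le_mul_of_nonneg_right (by exact_mod_cast rootCount_le hf p) (by positivity)

lemma abs_primesAboveSum_sub_le {θ : 𝓞 K} {p : Nat.Primes}
    (hp : ¬ (p : ℕ) ∣ RingOfIntegers.exponent θ) {s : ℝ} (hs : 1 ≤ s) :
    |primesAboveSum K p s - (rootCount (minpoly ℤ θ) p : ℝ) * (p : ℝ) ^ (-s)| ≤
      (minpoly ℤ θ).natDegree * (p : ℝ) ^ (-2 : ℝ) := by
  classical
  let _ := Fintype.ofFinite (PrimesAbove K p)
  rw [primesAboveSum, tsum_fintype, ← card_deg_one_eq_rootCount hp, Nat.card_eq_fintype_card,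
    Fintype.card_subtype, ← nsmul_eq_mul, ← Finset.sum_const]
  have heq : ∀ P ∈ (Finset.univ.filter fun P : PrimesAbove K p => inertiaDeg P.1 ℤ = 1),
      normRpow s P.1 = (p : ℝ) ^ (-s) := fun P hP => by
    simp [normRpow, absNorm_primesAbove, (Finset.mem_filter.mp hP).2]
  rw [← Finset.sum_congr rfl heq, ← Finset.sum_filter_add_sum_filter_not Finset.univ
    (fun P : PrimesAbove K p => inertiaDeg P.1 ℤ = 1) (fun P => normRpow s P.1), add_sub_cancel_left,
    abs_of_nonneg (Finset.sum_nonneg fun P _ => normRpow_nonneg _ _)]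
  refine (Finset.sum_le_card_nsmul _ _ ((p : ℝ) ^ (-2 : ℝ)) fun P hP => ?_).trans ?_
  · have h1 := (Finset.mem_filter.mp hP).2
    have h0 : inertiaDeg P.1 ℤ ≠ 0 := by
      intro h
      have h2 := two_le_absNorm (prime_primesAbove p P)
      rw [absNorm_primesAbove, h, pow_zero] at h2
      omega
    have hp1 : (1 : ℝ) ≤ p := by exact_mod_cast p.2.one_le
    rw [normRpow, absNorm_primesAbove, Nat.cast_pow, ← Real.rpow_natCast,
      ← Real.rpow_mul (by positivity)]
    refine Real.rpow_le_rpow_of_exponent_le hp1 ?_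
    have : (2 : ℝ) ≤ (inertiaDeg P.1 ℤ : ℕ) := by exact_mod_cast (show 2 ≤ inertiaDeg P.1 ℤ by omega)
    nlinarith
  · rw [nsmul_eq_mul]
    refine mul_le_mul_of_nonneg_right ?_ (by positivity)
    exact_mod_cast le_trans (Finset.card_filter_le _ _)
      (le_of_eq_of_le (Finset.card_univ.trans Nat.card_eq_fintype_card.symm)
        (card_primesAbove_le hp))

theorem rootSum_add_log_isBigO {θ : 𝓞 K} (hθ : Algebra.adjoin ℚ ({(θ : K)} : Set K) = ⊤) :
    (fun s : ℝ => rootSum (minpoly ℤ θ) s + Real.log (s - 1)) =O[𝓝[>] (1 : ℝ)]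
      fun _ => (1 : ℝ) := by
  classical
  have he := exponent_ne_zero_of_adjoin_eq_top hθ
  set f := minpoly ℤ θ with hfdef
  have hf : f.Monic := minpoly.monic θ.isIntegral
  let bad : Finset Nat.Primes :=
    (RingOfIntegers.exponent θ).divisors.subtype Nat.Prime
  let b : Nat.Primes → ℝ := fun p => (f.natDegree : ℝ) * (p : ℝ) ^ (-2 : ℝ) +
    if p ∈ bad then (Nat.card (PrimesAbove K p) : ℝ) + (f.natDegree : ℝ) else 0
  have hb : Summable b := by
    refine Summable.add (((Real.summable_nat_rpow.mpr (by norm_num : (-2 : ℝ) < -1)).comp_injective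
      Nat.Primes.coe_nat_injective).mul_left _) ?_
    exact summable_of_ne_finset_zero (s := bad) fun p hp => if_neg hp
  have hbound : ∀ {s : ℝ}, 1 ≤ s → ∀ p : Nat.Primes,
      ‖primesAboveSum K p s - (rootCount f p : ℝ) * (p : ℝ) ^ (-s)‖ ≤ b p := by
    intro s hs p
    rw [Real.norm_eq_abs]
    by_cases hp : (p : ℕ) ∣ RingOfIntegers.exponent θ
    · have hmem : p ∈ bad :=
        (Finset.mem_subtype (p := Nat.Prime)).mpr (Nat.mem_divisors.mpr ⟨hp, he⟩)
      simp only [b, if_pos hmem]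
      have h1 : primesAboveSum K p s ≤ (Nat.card (PrimesAbove K p) : ℝ) := by
        let _ := Fintype.ofFinite (PrimesAbove K p)
        rw [primesAboveSum, tsum_fintype, Nat.card_eq_fintype_card, ← Finset.card_univ]
        refine (Finset.sum_le_card_nsmul _ _ 1 fun P _ => ?_).trans (by simp)
        linarith [normRpow_prime_le_half (prime_primesAbove p P) hs]
      have h2 : (rootCount f p : ℝ) * (p : ℝ) ^ (-s) ≤ f.natDegree := by
        refine le_trans (mul_le_of_le_one_right (Nat.cast_nonneg _) ?_)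
          (by exact_mod_cast rootCount_le hf p)
        exact Real.rpow_le_one_of_one_le_of_nonpos (by exact_mod_cast p.2.one_le) (by linarith)
      have h3 : 0 ≤ primesAboveSum K p s := tsum_nonneg fun P => normRpow_nonneg _ _
      have h4 : 0 ≤ (rootCount f p : ℝ) * (p : ℝ) ^ (-s) := by positivity
      have h5 : 0 ≤ (f.natDegree : ℝ) * (p : ℝ) ^ (-2 : ℝ) := by positivity
      rw [abs_le]
      constructor <;> linarith [(Nat.card (PrimesAbove K p)).cast_nonneg (α := ℝ)]
    · refine (abs_primesAboveSum_sub_le hp hs).trans (le_add_of_nonneg_right ?_)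
      split <;> positivity
  have hdiff : (fun s : ℝ => primeSum K s - rootSum f s) =O[𝓝[>] (1 : ℝ)] fun _ => (1 : ℝ) := by
    refine IsBigO.of_bound (∑' p, b p) ?_
    filter_upwards [self_mem_nhdsWithin] with s (hs : 1 < s)
    obtain ⟨h1, h2⟩ := summable_primesAboveSum (K := K) hs
    rw [← h2, rootSum, ← h1.tsum_sub (summable_rootSum hf hs), norm_one, mul_one]
    exact tsum_of_norm_bounded hb.hasSum (hbound hs.le)
  refine (primeSum_add_log_isBigO (K := K)).sub hdiff |>.congr_left fun s => ?_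
  ring

end FLTAgent.Chebotarev
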