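import Mathlib.NumberTheory.NumberField.DedekindZeta
import Mathlib.Analysis.Normed.Ring.InfiniteSum
import Mathlib.Analysis.SpecificLimits.Basic

/-!
The sum of `N P ^ (-s)` over the prime ideals of a number field is `-log (s - 1) + O(1)`.
-/

set_option autoImplicit false

noncomputable section

namespace FLTAgent.Chebotarev

open Filter Topology NumberField Ideal UniqueFactorizationMonoid Asymptotics nonZeroDivisors

variable (K : Type*) [Field K] [NumberField K]

/-- Nonzero prime ideals. -/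
abbrev PrimeIdeal := {P : Ideal (𝓞 K) // Prime P}

variable {K}

def normRpow (s : ℝ) (I : Ideal (𝓞 K)) : ℝ := (absNorm I : ℝ) ^ (-s)

lemma normRpow_nonneg (s : ℝ) (I : Ideal (𝓞 K)) : 0 ≤ normRpow s I :=
  Real.rpow_nonneg (Nat.cast_nonneg _) _

lemma normRpow_zero {s : ℝ} (hs : 0 < s) : normRpow s (0 : Ideal (𝓞 K)) = 0 := by
  simp [normRpow, Real.zero_rpow (by linarith : -s ≠ 0)]

lemma normRpow_one (s : ℝ) : normRpow s (1 : Ideal (𝓞 K)) = 1 := by
  simp [normRpow]

lemma normRpow_mul (s : ℝ) (I J : Ideal (𝓞 K)) :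
    normRpow s (I * J) = normRpow s I * normRpow s J := by
  simp only [normRpow, map_mul, Nat.cast_mul]
  exact Real.mul_rpow (Nat.cast_nonneg _) (Nat.cast_nonneg _)

lemma normRpow_pow (s : ℝ) (I : Ideal (𝓞 K)) (k : ℕ) :
    normRpow s (I ^ k) = normRpow s I ^ k := by
  induction k with
  | zero => rw [pow_zero, pow_zero, normRpow_one]
  | succ k ih => rw [pow_succ, normRpow_mul, ih, pow_succ]

variable (K) in
def normCount (n : ℕ) : ℕ := Nat.card {I : Ideal (𝓞 K) // absNorm I = n}

lemma sum_normCount (n : ℕ) :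
    ((∑ k ∈ Finset.Icc 1 n, normCount K k : ℕ) : ℝ) =
      (Nat.card {I : (Ideal (𝓞 K))⁰ // absNorm (I : Ideal (𝓞 K)) ≤ n} : ℝ) := by
  congr 1
  rw [← add_left_inj 1, ← card_norm_le_eq_card_norm_le_add_one,
    show Finset.Icc 1 n = Finset.Ioc 0 n from Finset.Icc_succ_left_eq_Ioc _ _,
    show 1 = normCount K 0 by simp [normCount, Ideal.absNorm_eq_zero_iff],
    Finset.sum_Ioc_add_eq_sum_Icc (n.zero_le)]
  simp only [normCount]
  rw [← Finset.card_preimage_eq_sum_card_image_eq (fun k _ ↦ finite_setOfPred_absNorm_eq k)]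
  simp [Set.coe_eq_subtype]

lemma summable_normCount {s : ℝ} (hs : 1 < s) :
    Summable fun n : ℕ => (normCount K n : ℝ) * (n : ℝ) ^ (-s) := by
  have hlim : Tendsto (fun n : ℕ => (∑ k ∈ Finset.Icc 1 n, (normCount K k : ℝ)) / (n : ℝ))
      atTop (𝓝 (dedekindZeta_residue K)) := by
    refine ((Ideal.tendsto_norm_le_div_atTop₀ K).comp tendsto_natCast_atTop_atTop).congr fun n ↦ ?_
    simp only [Function.comp_apply, Nat.cast_le, ← Nat.cast_sum, sum_normCount]
  have hO : (fun n : ℕ => ∑ k ∈ Finset.Icc 1 n, (normCount K k : ℝ)) =O[atTop]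
      fun n : ℕ => (n : ℝ) ^ (1 : ℝ) := by
    simp_rw [Real.rpow_one]
    refine (hlim.isBigO_one ℝ).mul (isBigO_refl (fun n : ℕ => (n : ℝ)) atTop) |>.congr' ?_ ?_
    · filter_upwards [eventually_ne_atTop 0] with n hn
      field_simp
    · simp
  have h := LSeriesSummable_of_sum_norm_bigO_and_nonneg hO (fun n => Nat.cast_nonneg _) zero_le_one
    (s := (s : ℂ)) (by simpa using hs)
  have h2 := h.norm
  refine h2.congr fun n => ?_
  rcases eq_or_ne n 0 with rfl | hn
  · simp [Real.zero_rpow (by linarith : -s ≠ 0)]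
  · rw [LSeries.norm_term_eq, if_neg hn]
    simp only [Complex.norm_real, Real.norm_natCast, Complex.ofReal_re]
    rw [Real.rpow_neg (Nat.cast_nonneg n), div_eq_mul_inv]

lemma fibre_tsum (s : ℝ) (n : ℕ) :
    ∑' I : {I : Ideal (𝓞 K) // absNorm I = n}, normRpow (K := K) s I.1 =
      (normCount K n : ℝ) * (n : ℝ) ^ (-s) := by
  have : ∀ I : {I : Ideal (𝓞 K) // absNorm I = n}, normRpow s I.1 = (n : ℝ) ^ (-s) :=
    fun I => by simp [normRpow, I.2]
  rw [tsum_congr this, tsum_const, nsmul_eq_mul, normCount]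

lemma summable_normRpow {s : ℝ} (hs : 1 < s) :
    Summable (normRpow s : Ideal (𝓞 K) → ℝ) := by
  rw [← (Equiv.sigmaFiberEquiv (absNorm : Ideal (𝓞 K) → ℕ)).summable_iff]
  refine (summable_sigma_of_nonneg fun x => normRpow_nonneg _ _).mpr ⟨fun n => ?_, ?_⟩
  · have : Finite {I : Ideal (𝓞 K) // absNorm I = n} := finite_setOfPred_absNorm_eq n
    exact Summable.of_finite
  · refine (summable_normCount (K := K) hs).congr fun n => ?_
    exact (fibre_tsum (K := K) s n).symm

variable (K) in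
def zetaReal (s : ℝ) : ℝ := ∑' I : Ideal (𝓞 K), normRpow s I

lemma ofReal_zetaReal {s : ℝ} (hs : 1 < s) :
    ((zetaReal K s : ℝ) : ℂ) = dedekindZeta K s := by
  have h1 : zetaReal K s = ∑' n : ℕ, (normCount K n : ℝ) * (n : ℝ) ^ (-s) := by
    have hsum := (Equiv.sigmaFiberEquiv (absNorm : Ideal (𝓞 K) → ℕ)).summable_iff.mpr
      (summable_normRpow (K := K) hs)
    rw [zetaReal, ← (Equiv.sigmaFiberEquiv (absNorm : Ideal (𝓞 K) → ℕ)).tsum_eq (normRpow s),
      ]
    simp only [Function.comp_def] at hsum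
    rw [hsum.tsum_sigma]
    exact tsum_congr fun n => fibre_tsum s n
  rw [h1, Complex.ofReal_tsum, dedekindZeta, LSeries]
  refine tsum_congr fun n => ?_
  rcases eq_or_ne n 0 with rfl | hn
  · simp [Real.zero_rpow (by linarith : -s ≠ 0)]
  · rw [LSeries.term_of_ne_zero hn, Complex.ofReal_mul, Complex.ofReal_natCast,
      Complex.ofReal_cpow (Nat.cast_nonneg n), Complex.ofReal_natCast, Complex.ofReal_neg,
      Complex.cpow_neg, div_eq_mul_inv]
    rfl

lemma tendsto_sub_one_mul_zetaReal :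
    Tendsto (fun s : ℝ => (s - 1) * zetaReal K s) (𝓝[>] 1) (𝓝 (dedekindZeta_residue K)) := by
  have h := tendsto_sub_one_mul_dedekindZeta_nhdsGT K
  have h2 : Tendsto (fun s : ℝ => (((s - 1) * zetaReal K s : ℝ) : ℂ)) (𝓝[>] 1)
      (𝓝 ((dedekindZeta_residue K : ℝ) : ℂ)) := by
    refine h.congr' ?_
    filter_upwards [self_mem_nhdsWithin] with s hs
    rw [Complex.ofReal_mul, ofReal_zetaReal hs]
    simp
  exact tendsto_ofReal_iff.mp h2

/-! ### Euler product -/

lemma two_le_absNorm {P : Ideal (𝓞 K)} (hP : Prime P) : 2 ≤ absNorm P := by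
  have h0 : absNorm P ≠ 0 := fun h => hP.ne_zero (absNorm_eq_zero_iff.mp h)
  have h1 : absNorm P ≠ 1 := fun h => hP.not_isUnit (Ideal.isUnit_iff.mpr (absNorm_eq_one_iff.mp h))
  omega

lemma normRpow_prime_le_half {P : Ideal (𝓞 K)} (hP : Prime P) {s : ℝ} (hs : 1 ≤ s) :
    normRpow s P ≤ 1 / 2 := by
  have h2 : (2 : ℝ) ≤ absNorm P := by exact_mod_cast two_le_absNorm hP
  calc normRpow s P ≤ (absNorm P : ℝ) ^ (-1 : ℝ) :=
        Real.rpow_le_rpow_of_exponent_le (by linarith) (by linarith)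
    _ = ((absNorm P : ℝ))⁻¹ := by rw [Real.rpow_neg_one]
    _ ≤ 1 / 2 := by rw [one_div]; exact inv_anti₀ two_pos h2

variable (K) in
def suppSet (T : Finset (Ideal (𝓞 K))) : Set (Ideal (𝓞 K)) :=
  {I | I ≠ 0 ∧ ∀ P, Prime P → P ∣ I → P ∈ T}

lemma tsum_suppSet {s : ℝ} (hs : 1 < s) (T : Finset (Ideal (𝓞 K))) (hT : ∀ P ∈ T, Prime P) :
    ∑' I : suppSet K T, normRpow s (I : Ideal (𝓞 K)) = ∏ P ∈ T, (1 - normRpow s P)⁻¹ := by
  classical
  induction T using Finset.induction with
  | empty =>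
    have : suppSet K (∅ : Finset (Ideal (𝓞 K))) = {1} := by
      ext I
      simp only [suppSet, Set.mem_ofPred_eq, Set.mem_singleton_iff]
      constructor
      · rintro ⟨h0, h⟩
        by_contra h1
        obtain ⟨P, hP, hd⟩ := WfDvdMonoid.exists_irreducible_factor (mt isUnit_iff_eq_one.mp h1) h0
        exact absurd (h P (irreducible_iff_prime.mp hP) hd) (by simp)
      · rintro rfl
        exact ⟨one_ne_zero, fun P hP hd => absurd (isUnit_of_dvd_one hd) hP.not_isUnit⟩
    rw [this, tsum_singleton (1 : Ideal (𝓞 K)) (normRpow s), Finset.prod_empty, normRpow_one]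
  | insert P T hPT ih =>
    have hP : Prime P := hT P (Finset.mem_insert_self P T)
    have hT' : ∀ Q ∈ T, Prime Q := fun Q hQ => hT Q (Finset.mem_insert_of_mem hQ)
    have hnd : ∀ J : suppSet K T, ¬ P ∣ (J : Ideal (𝓞 K)) :=
      fun J hd => hPT (J.2.2 P hP hd)
    let φ : ℕ × suppSet K T → suppSet K (insert P T) := fun kJ =>
      ⟨P ^ kJ.1 * (kJ.2 : Ideal (𝓞 K)), mul_ne_zero (pow_ne_zero _ hP.ne_zero) kJ.2.2.1, by
        intro Q hQ hd
        rcases hQ.dvd_mul.mp hd with h | h
        · have := (hQ.dvd_of_dvd_pow h)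
          have : Q = P := associated_iff_eq.mp (hQ.associated_of_dvd hP this)
          simp [this]
        · exact Finset.mem_insert_of_mem (kJ.2.2.2 Q hQ h)⟩
    have hφ : Function.Bijective φ := by
      constructor
      · rintro ⟨k, J⟩ ⟨l, J'⟩ h
        have h' : P ^ k * (J : Ideal (𝓞 K)) = P ^ l * (J' : Ideal (𝓞 K)) := congrArg Subtype.val h
        have key : ∀ k l : ℕ, ∀ J J' : suppSet K T, k ≤ l →
            P ^ k * (J : Ideal (𝓞 K)) = P ^ l * (J' : Ideal (𝓞 K)) → k = l ∧ J = J' := by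
          intro k l J J' hkl h
          obtain ⟨d, rfl⟩ := Nat.exists_eq_add_of_le hkl
          rw [pow_add, mul_assoc] at h
          have h'' := mul_left_cancel₀ (pow_ne_zero _ hP.ne_zero) h
          rcases d with _ | d
          · exact ⟨rfl, Subtype.ext (by simpa using h'')⟩
          · exact absurd ⟨P ^ d * (J' : Ideal (𝓞 K)), by rw [h'', pow_succ']; ring⟩ (hnd J)
        rcases le_total k l with hkl | hkl
        · obtain ⟨rfl, rfl⟩ := key k l J J' hkl h'; rfl
        · obtain ⟨rfl, rfl⟩ := key l k J' J hkl h'.symm; rfl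
      · rintro ⟨I, hI0, hI⟩
        obtain ⟨k, J, hJ, rfl⟩ := WfDvdMonoid.max_power_factor hI0 hP.irreducible
        refine ⟨(k, ⟨J, right_ne_zero_of_mul hI0, fun Q hQ hd => ?_⟩), rfl⟩
        rcases Finset.mem_insert.mp (hI Q hQ (dvd_mul_of_dvd_right hd _)) with rfl | h
        · exact absurd hd hJ
        · exact h
    rw [← (Equiv.ofBijective φ hφ).tsum_eq, Finset.prod_insert hPT, ← ih hT']
    have hx0 := normRpow_nonneg s P
    have hx1 : normRpow s P < 1 := by linarith [normRpow_prime_le_half hP hs.le]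
    have e : ∀ kJ : ℕ × suppSet K T, normRpow s ((Equiv.ofBijective φ hφ kJ : suppSet K (insert P T))
        : Ideal (𝓞 K)) = normRpow s P ^ kJ.1 * normRpow s (kJ.2 : Ideal (𝓞 K)) := fun kJ => by
      simp [φ, normRpow_mul, normRpow_pow]
    rw [tsum_congr e]
    have hf : Summable fun k : ℕ => ‖normRpow s P ^ k‖ :=
      (summable_geometric_of_lt_one hx0 hx1).norm
    have hg : Summable fun J : suppSet K T => ‖normRpow s (J : Ideal (𝓞 K))‖ :=
      ((summable_normRpow hs).subtype _).norm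
    rw [← tsum_mul_tsum_of_summable_norm (R := ℝ) (f := fun k : ℕ => normRpow s P ^ k)
      (g := fun J : suppSet K T => normRpow s (J : Ideal (𝓞 K))) hf hg,
      tsum_geometric_of_lt_one hx0 hx1]

variable (K) in
def eulerLog (s : ℝ) (P : PrimeIdeal K) : ℝ := -Real.log (1 - normRpow s P.1)

lemma eulerLog_bounds {s : ℝ} (hs : 1 ≤ s) (P : PrimeIdeal K) :
    normRpow s P.1 ≤ eulerLog K s P ∧
      eulerLog K s P ≤ normRpow s P.1 + 2 * normRpow 2 P.1 := by
  have hx0 := normRpow_nonneg s P.1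
  have hx1 := normRpow_prime_le_half P.2 hs
  have h1 : 0 < 1 - normRpow s P.1 := by linarith
  constructor
  · have := Real.log_le_sub_one_of_pos h1
    rw [eulerLog]; linarith
  · have hsq : normRpow s P.1 * normRpow s P.1 ≤ normRpow 2 P.1 := by
      have hn : (1 : ℝ) ≤ absNorm P.1 := by
        exact_mod_cast le_trans one_le_two (two_le_absNorm P.2)
      simp only [normRpow]
      rw [← Real.rpow_add (by linarith)]
      exact Real.rpow_le_rpow_of_exponent_le hn (by linarith)
    have h2 := Real.log_le_sub_one_of_pos (inv_pos.mpr h1)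
    rw [Real.log_inv] at h2
    have h3 : (1 - normRpow s P.1)⁻¹ - 1 ≤
        normRpow s P.1 + 2 * (normRpow s P.1 * normRpow s P.1) := by
      rw [sub_le_iff_le_add, inv_le_iff_one_le_mul₀ h1]
      nlinarith [mul_nonneg (mul_nonneg hx0 hx0) (by linarith : 0 ≤ 1 - 2 * normRpow s P.1)]
    rw [eulerLog]; linarith

lemma eulerLog_nonneg {s : ℝ} (hs : 1 ≤ s) (P : PrimeIdeal K) : 0 ≤ eulerLog K s P :=
  (normRpow_nonneg s P.1).trans (eulerLog_bounds hs P).1

lemma one_le_zetaReal {s : ℝ} (hs : 1 < s) : 1 ≤ zetaReal K s := by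
  have h := (summable_normRpow (K := K) hs).le_tsum 1 fun I _ => normRpow_nonneg s I
  rwa [normRpow_one] at h

lemma exp_sum_eulerLog {s : ℝ} (hs : 1 < s) (T : Finset (Ideal (𝓞 K))) (hT : ∀ P ∈ T, Prime P)
    (T' : Finset (PrimeIdeal K)) (h : T'.map (Function.Embedding.subtype _) = T) :
    Real.exp (∑ P ∈ T', eulerLog K s P) = ∑' I : suppSet K T, normRpow s (I : Ideal (𝓞 K)) := by
  rw [tsum_suppSet hs T hT, Real.exp_sum, ← h, Finset.prod_map]
  refine Finset.prod_congr rfl fun P _ => ?_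
  have : 0 < 1 - normRpow s P.1 := by linarith [normRpow_prime_le_half P.2 hs.le]
  simp [eulerLog, Real.exp_neg, Real.exp_log this]

lemma sum_eulerLog_le {s : ℝ} (hs : 1 < s) (T' : Finset (PrimeIdeal K)) :
    ∑ P ∈ T', eulerLog K s P ≤ Real.log (zetaReal K s) := by
  rw [Real.le_log_iff_exp_le (zero_lt_one.trans_le (one_le_zetaReal hs)),
    exp_sum_eulerLog hs (T'.map (Function.Embedding.subtype _))
      (fun P hP => by obtain ⟨Q, _, rfl⟩ := Finset.mem_map.mp hP; exact Q.2) T' rfl]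
  exact Summable.tsum_subtype_le (normRpow s) _ (fun I => normRpow_nonneg s I)
    (summable_normRpow hs)

lemma summable_eulerLog {s : ℝ} (hs : 1 < s) : Summable (eulerLog K s) :=
  summable_of_sum_le (eulerLog_nonneg hs.le) (sum_eulerLog_le hs)

lemma tsum_eulerLog {s : ℝ} (hs : 1 < s) :
    ∑' P, eulerLog K s P = Real.log (zetaReal K s) := by
  classical
  refine le_antisymm (Real.tsum_le_of_sum_le (eulerLog_nonneg hs.le) (sum_eulerLog_le hs)) ?_
  rw [Real.log_le_iff_le_exp (zero_lt_one.trans_le (one_le_zetaReal hs))]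
  refine Real.tsum_le_of_sum_le (fun I => normRpow_nonneg s I) fun F => ?_
  let T : Finset (Ideal (𝓞 K)) := (F.filter (· ≠ 0)).biUnion fun I =>
    (normalizedFactors I).toFinset
  have hT : ∀ P ∈ T, Prime P := by
    intro P hP
    obtain ⟨I, _, hPI⟩ := Finset.mem_biUnion.mp hP
    exact prime_of_normalized_factor P (Multiset.mem_toFinset.mp hPI)
  have hF : ∀ I ∈ F.filter (· ≠ 0), I ∈ suppSet K T := by
    intro I hI
    refine ⟨(Finset.mem_filter.mp hI).2, fun P hP hd => Finset.mem_biUnion.mpr ⟨I, hI, ?_⟩⟩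
    obtain ⟨Q, hQ, hass⟩ :=
      exists_mem_normalizedFactors_of_dvd (Finset.mem_filter.mp hI).2 hP.irreducible hd
    rw [associated_iff_eq.mp hass]
    exact Multiset.mem_toFinset.mpr hQ
  let T' : Finset (PrimeIdeal K) := T.subtype Prime
  have hT' : T'.map (Function.Embedding.subtype _) = T := by
    rw [Finset.subtype_map]
    exact Finset.filter_true_of_mem hT
  calc ∑ I ∈ F, normRpow s I = ∑ I ∈ F.filter (· ≠ 0), normRpow s I := by
        symm
        refine Finset.sum_filter_of_ne fun I _ hne h0 => hne ?_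
        rw [h0, normRpow_zero (by linarith)]
    _ ≤ ∑' I : suppSet K T, normRpow s (I : Ideal (𝓞 K)) := by
        rw [← Finset.sum_subtype_of_mem (normRpow s) hF]
        exact ((summable_normRpow hs).subtype _).sum_le_tsum _ fun I _ => normRpow_nonneg s _
    _ = Real.exp (∑ P ∈ T', eulerLog K s P) := (exp_sum_eulerLog hs T hT T' hT').symm
    _ ≤ Real.exp (∑' P, eulerLog K s P) :=
        Real.exp_le_exp.mpr ((summable_eulerLog hs).sum_le_tsum _ fun P _ => eulerLog_nonneg hs.le P)

variable (K) in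
def primeSum (s : ℝ) : ℝ := ∑' P : PrimeIdeal K, normRpow s P.1

lemma summable_primeSum {s : ℝ} (hs : 1 < s) :
    Summable fun P : PrimeIdeal K => normRpow s P.1 :=
  (summable_normRpow hs).subtype _

theorem primeSum_add_log_isBigO :
    (fun s : ℝ => primeSum K s + Real.log (s - 1)) =O[𝓝[>] (1 : ℝ)] fun _ => (1 : ℝ) := by
  have h1 : (fun s : ℝ => Real.log ((s - 1) * zetaReal K s)) =O[𝓝[>] (1 : ℝ)]
      fun _ => (1 : ℝ) :=
    ((Real.continuousAt_log (dedekindZeta_residue_ne_zero K)).tendsto.comp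
      tendsto_sub_one_mul_zetaReal).isBigO_one ℝ
  set C : ℝ := 2 * ∑' P : PrimeIdeal K, normRpow 2 P.1 with hC
  have h2 : (fun s : ℝ => primeSum K s - Real.log (zetaReal K s)) =O[𝓝[>] (1 : ℝ)]
      fun _ => (1 : ℝ) := by
    refine IsBigO.of_bound C ?_
    filter_upwards [self_mem_nhdsWithin] with s (hs : 1 < s)
    have hu : Real.log (zetaReal K s) ≤ primeSum K s + C := by
      rw [← tsum_eulerLog hs, primeSum, hC, ← tsum_mul_left,
        ← (summable_primeSum hs).tsum_add ((summable_primeSum one_lt_two).mul_left 2)]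
      exact (summable_eulerLog hs).tsum_le_tsum (fun P => (eulerLog_bounds hs.le P).2)
        ((summable_primeSum hs).add ((summable_primeSum one_lt_two).mul_left 2))
    have hl : primeSum K s ≤ Real.log (zetaReal K s) := by
      rw [← tsum_eulerLog hs]
      exact (summable_primeSum hs).tsum_le_tsum (fun P => (eulerLog_bounds hs.le P).1)
        (summable_eulerLog hs)
    rw [Real.norm_eq_abs, norm_one, mul_one, abs_le]
    constructor <;> linarith
  refine (h2.add h1).congr' ?_ EventuallyEq.rfl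
  filter_upwards [self_mem_nhdsWithin] with s (hs : 1 < s)
  rw [Real.log_mul (by linarith) (by linarith [one_le_zetaReal (K := K) hs])]
  ring

end FLTAgent.Chebotarev
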